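import Fermat.Agent.S11.H911.Jet8

/-!
# Logarithmic derivative on units of `ℤ[ζ₁₁]` with values in `F₁₁[t]/(t^8)`
-/

open NumberField Polynomial

namespace Fermat.Agent.S11.H911

section DualNumberDlog

variable {R : Type*} [CommRing R]

/-- The logarithmic derivative `a + b ε ↦ b / a` on units of the dual numbers. -/
def dualDlog : (DualNumber R)ˣ →* Multiplicative R where
  toFun x := Multiplicative.ofAdd ((x : DualNumber R).snd * ((x⁻¹ : (DualNumber R)ˣ) : DualNumber R).fst)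
  map_one' := by simp
  map_mul' x y := by
    have hx : (x : DualNumber R).fst * ((x⁻¹ : (DualNumber R)ˣ) : DualNumber R).fst = 1 := by
      rw [← TrivSqZeroExt.fst_mul, Units.mul_inv, TrivSqZeroExt.fst_one]
    have hy : (y : DualNumber R).fst * ((y⁻¹ : (DualNumber R)ˣ) : DualNumber R).fst = 1 := by
      rw [← TrivSqZeroExt.fst_mul, Units.mul_inv, TrivSqZeroExt.fst_one]
    rw [← ofAdd_add]
    congr 1
    simp only [mul_inv_rev, Units.val_mul, TrivSqZeroExt.snd_mul, TrivSqZeroExt.fst_mul,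
      smul_eq_mul, MulOpposite.smul_eq_mul_unop, MulOpposite.unop_op]
    linear_combination ((x : DualNumber R).snd * ((x⁻¹ : (DualNumber R)ˣ) : DualNumber R).fst) * hy
      + ((y : DualNumber R).snd * ((y⁻¹ : (DualNumber R)ˣ) : DualNumber R).fst) * hx

lemma dualDlog_apply (x : (DualNumber R)ˣ) :
    Multiplicative.toAdd (dualDlog x) =
      (x : DualNumber R).snd * ((x⁻¹ : (DualNumber R)ˣ) : DualNumber R).fst := rfl

lemma dualDlog_mul_fst (x : (DualNumber R)ˣ) :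
    Multiplicative.toAdd (dualDlog x) * (x : DualNumber R).fst = (x : DualNumber R).snd := by
  have hx : ((x⁻¹ : (DualNumber R)ˣ) : DualNumber R).fst * (x : DualNumber R).fst = 1 := by
    rw [← TrivSqZeroExt.fst_mul, Units.inv_mul, TrivSqZeroExt.fst_one]
  rw [dualDlog_apply, mul_assoc, hx, mul_one]

end DualNumberDlog

/-- Dual numbers over `F₁₁[t]/(t^8)`. -/
abbrev DJ := DualNumber Jet8

instance instDecidableEqDJ : DecidableEq DJ := inferInstanceAs (DecidableEq (Jet8 × Jet8))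

/-- The image `1 + t + ε` of `ζ`. -/
def yJ : DJ := TrivSqZeroExt.inl (1 + Jet8.t) + TrivSqZeroExt.inr 1

set_option maxRecDepth 100000 in
lemma sum_yJ_pow : ∑ i ∈ Finset.range 11, yJ ^ i = 0 := by decide

set_option maxRecDepth 100000 in
lemma eleven_DJ : (11 : DJ) = 0 := by decide

variable (K : Type*) [Field K] [NumberField K] [IsCyclotomicExtension {11} ℚ K]

/-- the chosen primitive root in `𝓞 K` -/
noncomputable def zt11 : 𝓞 K := (IsCyclotomicExtension.zeta_spec 11 ℚ K).toInteger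

lemma zt11_prim : IsPrimitiveRoot (zt11 K) 11 :=
  (IsCyclotomicExtension.zeta_spec 11 ℚ K).toInteger_isPrimitiveRoot

lemma minpoly_zt11 : minpoly ℤ (zt11 K) = cyclotomic 11 ℤ := by
  have hζ := IsCyclotomicExtension.zeta_spec 11 ℚ K
  rw [cyclotomic_eq_minpoly hζ (by norm_num)]
  have : algebraMap (𝓞 K) K (zt11 K) = IsCyclotomicExtension.zeta 11 ℚ K := rfl
  rw [← this]
  exact (minpoly.algebraMap_eq (RingOfIntegers.coe_injective) (zt11 K)).symm

/-- the power basis `1, ζ, …, ζ^9` of `𝓞 K` -/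
noncomputable def pb11 : PowerBasis ℤ (𝓞 K) :=
  (IsCyclotomicExtension.zeta_spec 11 ℚ K).integralPowerBasis

lemma pb11_gen : (pb11 K).gen = zt11 K :=
  (IsCyclotomicExtension.zeta_spec 11 ℚ K).integralPowerBasis_gen

lemma aeval_yJ_minpoly : aeval yJ (minpoly ℤ (pb11 K).gen) = 0 := by
  have : Fact (Nat.Prime 11) := ⟨by norm_num⟩
  rw [pb11_gen, minpoly_zt11, cyclotomic_prime]
  simp only [map_sum, map_pow, aeval_X]
  exact sum_yJ_pow

/-- The ring homomorphism `𝓞 K → (F₁₁[t]/(t^8))[ε]`, `ζ ↦ 1 + t + ε`. -/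
noncomputable def Psi : 𝓞 K →ₐ[ℤ] DJ := (pb11 K).lift yJ (aeval_yJ_minpoly K)

lemma Psi_zt11 : Psi K (zt11 K) = yJ := by
  have := (pb11 K).lift_gen yJ (aeval_yJ_minpoly K)
  rwa [pb11_gen] at this

/-- The logarithmic derivative on units of `𝓞 K`. -/
noncomputable def dlog11 : (𝓞 K)ˣ →* Multiplicative Jet8 :=
  dualDlog.comp (Units.map (Psi K : 𝓞 K →* DJ))

lemma dlog11_mul_fst (u : (𝓞 K)ˣ) :
    Multiplicative.toAdd (dlog11 K u) * (Psi K (u : 𝓞 K)).fst = (Psi K (u : 𝓞 K)).snd :=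
  dualDlog_mul_fst (Units.map (Psi K : 𝓞 K →* DJ) u)

/-- Units congruent to a rational integer modulo `11` have trivial logarithmic derivative. -/
lemma dlog11_eq_zero_of_congr (u : (𝓞 K)ˣ) (m : ℤ) (h : (11 : 𝓞 K) ∣ (u : 𝓞 K) - (m : 𝓞 K)) :
    Multiplicative.toAdd (dlog11 K u) = 0 := by
  obtain ⟨x, hx⟩ := h
  have hu : (u : 𝓞 K) = m + 11 * x := by rw [← hx]; ring
  have h1 : Psi K (u : 𝓞 K) = (m : DJ) := by
    rw [hu, map_add, map_mul, map_intCast, map_ofNat, eleven_DJ, zero_mul, add_zero]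
  have h2 : (Psi K (u : 𝓞 K)).snd = 0 := by
    rw [h1]; simp
  have h3 := dlog11_mul_fst K u
  rw [h2] at h3
  -- `fst (Psi u)` is a unit
  have h4 : (Psi K (u : 𝓞 K)).fst * (Psi K ((u⁻¹ : (𝓞 K)ˣ) : 𝓞 K)).fst = 1 := by
    rw [← TrivSqZeroExt.fst_mul, ← map_mul, Units.mul_inv, map_one, TrivSqZeroExt.fst_one]
  calc Multiplicative.toAdd (dlog11 K u)
      = Multiplicative.toAdd (dlog11 K u) * ((Psi K (u : 𝓞 K)).fst *
          (Psi K ((u⁻¹ : (𝓞 K)ˣ) : 𝓞 K)).fst) := by rw [h4, mul_one]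
    _ = 0 := by rw [← mul_assoc, h3, zero_mul]

end Fermat.Agent.S11.H911
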