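import Fermat.Agent.S11.H911.Dlog

/-!
# Five independent units of `ℤ[ζ₁₁]` modulo units congruent to an integer mod `11`
-/

open NumberField Polynomial

set_option linter.unusedSimpArgs false

namespace Fermat.Agent.S11.H911

variable (K : Type*) [Field K] [NumberField K] [IsCyclotomicExtension {11} ℚ K]

/-- the unit `ζ` -/
noncomputable def cu0 : (𝓞 K)ˣ := ((zt11_prim K).isUnit (by norm_num)).unit

/-- the cyclotomic unit `1 + ζ + ⋯ + ζ ^ (j - 1)` for `j` coprime to `11` -/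
noncomputable def cuG (j : ℕ) (hj : j.Coprime 11) : (𝓞 K)ˣ :=
  ((zt11_prim K).geom_sum_isUnit (by norm_num) hj).unit

lemma cu0_val : ((cu0 K : (𝓞 K)ˣ) : 𝓞 K) = zt11 K := rfl

lemma cuG_val (j : ℕ) (hj : j.Coprime 11) :
    ((cuG K j hj : (𝓞 K)ˣ) : 𝓞 K) = ∑ i ∈ Finset.range j, zt11 K ^ i := rfl

/-- the five units `ζ, 1 + ζ, …, 1 + ζ + ζ² + ζ³ + ζ⁴` -/
noncomputable def cU : Fin 5 → (𝓞 K)ˣ :=
  ![cu0 K, cuG K 2 (by norm_num), cuG K 3 (by norm_num), cuG K 4 (by norm_num),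
    cuG K 5 (by norm_num)]

/-- explicit images in the dual numbers -/
def Y0 : DJ := yJ
def Y1 : DJ := ∑ i ∈ Finset.range 2, yJ ^ i
def Y2 : DJ := ∑ i ∈ Finset.range 3, yJ ^ i
def Y3 : DJ := ∑ i ∈ Finset.range 4, yJ ^ i
def Y4 : DJ := ∑ i ∈ Finset.range 5, yJ ^ i

lemma Psi_cu0 : Psi K (cu0 K : 𝓞 K) = Y0 := by rw [cu0_val, Psi_zt11]; rfl

lemma Psi_cuG (j : ℕ) (hj : j.Coprime 11) :
    Psi K (cuG K j hj : 𝓞 K) = ∑ i ∈ Finset.range j, yJ ^ i := by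
  rw [cuG_val, map_sum]
  simp only [map_pow, Psi_zt11]

set_option maxRecDepth 100000 in
lemma E0_eq : Y0.snd * (Y1.fst * Y2.fst * Y3.fst * Y4.fst) = ⟨10, 6, 9, 0, 0, 1, 10, 10⟩ := by
  decide

set_option maxRecDepth 100000 in
lemma E1_eq : Y1.snd * (Y0.fst * Y2.fst * Y3.fst * Y4.fst) = ⟨5, 0, 2, 9, 1, 0, 0, 10⟩ := by
  decide

set_option maxRecDepth 100000 in
lemma E2_eq : Y2.snd * (Y0.fst * Y1.fst * Y3.fst * Y4.fst) = ⟨10, 9, 6, 10, 5, 0, 10, 10⟩ := by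
  decide

set_option maxRecDepth 100000 in
lemma E3_eq : Y3.snd * (Y0.fst * Y1.fst * Y2.fst * Y4.fst) = ⟨4, 5, 1, 4, 10, 0, 2, 6⟩ := by
  decide

set_option maxRecDepth 100000 in
lemma E4_eq : Y4.snd * (Y0.fst * Y1.fst * Y2.fst * Y3.fst) = ⟨9, 10, 9, 10, 0, 10, 8, 5⟩ := by
  decide

/-- **Independence of units** (T3c): the five units `ζ, 1 + ζ, …, 1 + ζ + ⋯ + ζ⁴` are
independent modulo the units congruent to a rational integer modulo `11`. -/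
theorem exists_independent_units_aux :
    ∀ n : Fin 5 → ℤ,
      (∃ m : ℤ, (11 : 𝓞 K) ∣ ((∏ i, cU K i ^ n i : (𝓞 K)ˣ) : 𝓞 K) - (m : 𝓞 K)) →
        ∀ i, (11 : ℤ) ∣ n i := by
  rintro n ⟨m, hm⟩
  have h0 := dlog11_eq_zero_of_congr K _ m hm
  rw [map_prod, toAdd_prod] at h0
  simp only [map_zpow, toAdd_zpow, Fin.sum_univ_five, zsmul_eq_mul] at h0
  -- the five logarithmic derivatives
  set l0 := Multiplicative.toAdd (dlog11 K (cU K 0)) with hl0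
  set l1 := Multiplicative.toAdd (dlog11 K (cU K 1)) with hl1
  set l2 := Multiplicative.toAdd (dlog11 K (cU K 2)) with hl2
  set l3 := Multiplicative.toAdd (dlog11 K (cU K 3)) with hl3
  set l4 := Multiplicative.toAdd (dlog11 K (cU K 4)) with hl4
  have e0 : l0 * Y0.fst = Y0.snd := by
    have := dlog11_mul_fst K (cU K 0)
    rwa [show cU K 0 = cu0 K from rfl, Psi_cu0] at this
  have e1 : l1 * Y1.fst = Y1.snd := by
    have := dlog11_mul_fst K (cU K 1)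
    rwa [show cU K 1 = cuG K 2 (by norm_num) from rfl, Psi_cuG] at this
  have e2 : l2 * Y2.fst = Y2.snd := by
    have := dlog11_mul_fst K (cU K 2)
    rwa [show cU K 2 = cuG K 3 (by norm_num) from rfl, Psi_cuG] at this
  have e3 : l3 * Y3.fst = Y3.snd := by
    have := dlog11_mul_fst K (cU K 3)
    rwa [show cU K 3 = cuG K 4 (by norm_num) from rfl, Psi_cuG] at this
  have e4 : l4 * Y4.fst = Y4.snd := by
    have := dlog11_mul_fst K (cU K 4)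
    rwa [show cU K 4 = cuG K 5 (by norm_num) from rfl, Psi_cuG] at this
  -- clear denominators
  have key : (n 0 : Jet8) * (Y0.snd * (Y1.fst * Y2.fst * Y3.fst * Y4.fst)) +
      (n 1 : Jet8) * (Y1.snd * (Y0.fst * Y2.fst * Y3.fst * Y4.fst)) +
      (n 2 : Jet8) * (Y2.snd * (Y0.fst * Y1.fst * Y3.fst * Y4.fst)) +
      (n 3 : Jet8) * (Y3.snd * (Y0.fst * Y1.fst * Y2.fst * Y4.fst)) +
      (n 4 : Jet8) * (Y4.snd * (Y0.fst * Y1.fst * Y2.fst * Y3.fst)) = 0 := by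
    linear_combination (Y0.fst * Y1.fst * Y2.fst * Y3.fst * Y4.fst) * h0
      - ((n 0 : Jet8) * (Y1.fst * Y2.fst * Y3.fst * Y4.fst)) * e0
      - ((n 1 : Jet8) * (Y0.fst * Y2.fst * Y3.fst * Y4.fst)) * e1
      - ((n 2 : Jet8) * (Y0.fst * Y1.fst * Y3.fst * Y4.fst)) * e2
      - ((n 3 : Jet8) * (Y0.fst * Y1.fst * Y2.fst * Y4.fst)) * e3
      - ((n 4 : Jet8) * (Y0.fst * Y1.fst * Y2.fst * Y3.fst)) * e4
  rw [E0_eq, E1_eq, E2_eq, E3_eq, E4_eq] at key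
  -- coordinates
  have k0 := congrArg Jet8.c0 key
  have k1 := congrArg Jet8.c1 key
  have k3 := congrArg Jet8.c3 key
  have k5 := congrArg Jet8.c5 key
  have k7 := congrArg Jet8.c7 key
  simp only [Jet8.add_c0, Jet8.mul_c0, Jet8.add_c1, Jet8.mul_c1, Jet8.add_c3, Jet8.mul_c3, Jet8.add_c5, Jet8.mul_c5, Jet8.add_c7, Jet8.mul_c7,
    Jet8.intCast_c0, Jet8.intCast_c1, Jet8.intCast_c2, Jet8.intCast_c3, Jet8.intCast_c4, Jet8.intCast_c5, Jet8.intCast_c6, Jet8.intCast_c7,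
    Jet8.zero_c0, Jet8.zero_c1, Jet8.zero_c2, Jet8.zero_c3, Jet8.zero_c4, Jet8.zero_c5, Jet8.zero_c6, Jet8.zero_c7,
    zero_mul, mul_zero, add_zero, zero_add] at k0 k1 k3 k5 k7
  have d0 : (11 : ℤ) ∣ n 0 * 10 + n 1 * 5 + n 2 * 10 + n 3 * 4 + n 4 * 9 := by
    have := (ZMod.intCast_zmod_eq_zero_iff_dvd
      (n 0 * 10 + n 1 * 5 + n 2 * 10 + n 3 * 4 + n 4 * 9) 11).1 (by push_cast; linear_combination k0)
    simpa using this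
  have d1 : (11 : ℤ) ∣ n 0 * 6 + n 1 * 0 + n 2 * 9 + n 3 * 5 + n 4 * 10 := by
    have := (ZMod.intCast_zmod_eq_zero_iff_dvd
      (n 0 * 6 + n 1 * 0 + n 2 * 9 + n 3 * 5 + n 4 * 10) 11).1 (by push_cast; linear_combination k1)
    simpa using this
  have d3 : (11 : ℤ) ∣ n 0 * 0 + n 1 * 9 + n 2 * 10 + n 3 * 4 + n 4 * 10 := by
    have := (ZMod.intCast_zmod_eq_zero_iff_dvd
      (n 0 * 0 + n 1 * 9 + n 2 * 10 + n 3 * 4 + n 4 * 10) 11).1 (by push_cast; linear_combination k3)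
    simpa using this
  have d5 : (11 : ℤ) ∣ n 0 * 1 + n 1 * 0 + n 2 * 0 + n 3 * 0 + n 4 * 10 := by
    have := (ZMod.intCast_zmod_eq_zero_iff_dvd
      (n 0 * 1 + n 1 * 0 + n 2 * 0 + n 3 * 0 + n 4 * 10) 11).1 (by push_cast; linear_combination k5)
    simpa using this
  have d7 : (11 : ℤ) ∣ n 0 * 10 + n 1 * 10 + n 2 * 10 + n 3 * 6 + n 4 * 5 := by
    have := (ZMod.intCast_zmod_eq_zero_iff_dvd
      (n 0 * 10 + n 1 * 10 + n 2 * 10 + n 3 * 6 + n 4 * 5) 11).1 (by push_cast; linear_combination k7)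
    simpa using this
  intro i
  fin_cases i
  · have h := (dvd_add (dvd_add (dvd_add (dvd_add (Dvd.dvd.mul_left d0 0) (Dvd.dvd.mul_left d1 5)) (Dvd.dvd.mul_left d3 10)) (Dvd.dvd.mul_left d5 6)) (Dvd.dvd.mul_left d7 2))
    have e : n 0 = (0 * (n 0 * 10 + n 1 * 5 + n 2 * 10 + n 3 * 4 + n 4 * 9) + 5 * (n 0 * 6 + n 1 * 0 + n 2 * 9 + n 3 * 5 + n 4 * 10) + 10 * (n 0 * 0 + n 1 * 9 + n 2 * 10 + n 3 * 4 + n 4 * 10) + 6 * (n 0 * 1 + n 1 * 0 + n 2 * 0 + n 3 * 0 + n 4 * 10) + 2 * (n 0 * 10 + n 1 * 10 + n 2 * 10 + n 3 * 6 + n 4 * 5)) - 11 * (5 * n 0 + 10 * n 1 + 15 * n 2 + 7 * n 3 + 20 * n 4) := by ring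
    simp only [Fin.zero_eta, Fin.mk_one, Fin.reduceFinMk] at *
    rw [e]
    exact dvd_sub h (dvd_mul_right 11 _)
  · have h := (dvd_add (dvd_add (dvd_add (dvd_add (Dvd.dvd.mul_left d0 8) (Dvd.dvd.mul_left d1 3)) (Dvd.dvd.mul_left d3 9)) (Dvd.dvd.mul_left d5 0)) (Dvd.dvd.mul_left d7 10))
    have e : n 1 = (8 * (n 0 * 10 + n 1 * 5 + n 2 * 10 + n 3 * 4 + n 4 * 9) + 3 * (n 0 * 6 + n 1 * 0 + n 2 * 9 + n 3 * 5 + n 4 * 10) + 9 * (n 0 * 0 + n 1 * 9 + n 2 * 10 + n 3 * 4 + n 4 * 10) + 0 * (n 0 * 1 + n 1 * 0 + n 2 * 0 + n 3 * 0 + n 4 * 10) + 10 * (n 0 * 10 + n 1 * 10 + n 2 * 10 + n 3 * 6 + n 4 * 5)) - 11 * (18 * n 0 + 20 * n 1 + 27 * n 2 + 13 * n 3 + 22 * n 4) := by ring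
    simp only [Fin.zero_eta, Fin.mk_one, Fin.reduceFinMk] at *
    rw [e]
    exact dvd_sub h (dvd_mul_right 11 _)
  · have h := (dvd_add (dvd_add (dvd_add (dvd_add (Dvd.dvd.mul_left d0 1) (Dvd.dvd.mul_left d1 10)) (Dvd.dvd.mul_left d3 5)) (Dvd.dvd.mul_left d5 2)) (Dvd.dvd.mul_left d7 6))
    have e : n 2 = (1 * (n 0 * 10 + n 1 * 5 + n 2 * 10 + n 3 * 4 + n 4 * 9) + 10 * (n 0 * 6 + n 1 * 0 + n 2 * 9 + n 3 * 5 + n 4 * 10) + 5 * (n 0 * 0 + n 1 * 9 + n 2 * 10 + n 3 * 4 + n 4 * 10) + 2 * (n 0 * 1 + n 1 * 0 + n 2 * 0 + n 3 * 0 + n 4 * 10) + 6 * (n 0 * 10 + n 1 * 10 + n 2 * 10 + n 3 * 6 + n 4 * 5)) - 11 * (12 * n 0 + 10 * n 1 + 19 * n 2 + 10 * n 3 + 19 * n 4) := by ring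
    simp only [Fin.zero_eta, Fin.mk_one, Fin.reduceFinMk] at *
    rw [e]
    exact dvd_sub h (dvd_mul_right 11 _)
  · have h := (dvd_add (dvd_add (dvd_add (dvd_add (Dvd.dvd.mul_left d0 7) (Dvd.dvd.mul_left d1 8)) (Dvd.dvd.mul_left d3 3)) (Dvd.dvd.mul_left d5 10)) (Dvd.dvd.mul_left d7 7))
    have e : n 3 = (7 * (n 0 * 10 + n 1 * 5 + n 2 * 10 + n 3 * 4 + n 4 * 9) + 8 * (n 0 * 6 + n 1 * 0 + n 2 * 9 + n 3 * 5 + n 4 * 10) + 3 * (n 0 * 0 + n 1 * 9 + n 2 * 10 + n 3 * 4 + n 4 * 10) + 10 * (n 0 * 1 + n 1 * 0 + n 2 * 0 + n 3 * 0 + n 4 * 10) + 7 * (n 0 * 10 + n 1 * 10 + n 2 * 10 + n 3 * 6 + n 4 * 5)) - 11 * (18 * n 0 + 12 * n 1 + 22 * n 2 + 11 * n 3 + 28 * n 4) := by ring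
    simp only [Fin.zero_eta, Fin.mk_one, Fin.reduceFinMk] at *
    rw [e]
    exact dvd_sub h (dvd_mul_right 11 _)
  · have h := (dvd_add (dvd_add (dvd_add (dvd_add (Dvd.dvd.mul_left d0 0) (Dvd.dvd.mul_left d1 5)) (Dvd.dvd.mul_left d3 10)) (Dvd.dvd.mul_left d5 5)) (Dvd.dvd.mul_left d7 2))
    have e : n 4 = (0 * (n 0 * 10 + n 1 * 5 + n 2 * 10 + n 3 * 4 + n 4 * 9) + 5 * (n 0 * 6 + n 1 * 0 + n 2 * 9 + n 3 * 5 + n 4 * 10) + 10 * (n 0 * 0 + n 1 * 9 + n 2 * 10 + n 3 * 4 + n 4 * 10) + 5 * (n 0 * 1 + n 1 * 0 + n 2 * 0 + n 3 * 0 + n 4 * 10) + 2 * (n 0 * 10 + n 1 * 10 + n 2 * 10 + n 3 * 6 + n 4 * 5)) - 11 * (5 * n 0 + 10 * n 1 + 15 * n 2 + 7 * n 3 + 19 * n 4) := by ring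
    simp only [Fin.zero_eta, Fin.mk_one, Fin.reduceFinMk] at *
    rw [e]
    exact dvd_sub h (dvd_mul_right 11 _)

/-- T3c in the exact form of the team interface. -/
theorem exists_independent_units :
    ∃ c : Fin 5 → (𝓞 K)ˣ, ∀ n : Fin 5 → ℤ,
      (∃ m : ℤ, (11 : 𝓞 K) ∣ ((∏ i, c i ^ n i : (𝓞 K)ˣ) : 𝓞 K) - (m : 𝓞 K)) →
        ∀ i, (11 : ℤ) ∣ n i :=
  ⟨cU K, exists_independent_units_aux K⟩

end Fermat.Agent.S11.H911
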