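import Mathlib

namespace Fermat.Agent.S11.H911

/-- The truncated polynomial ring `(ZMod 11)[t]/(t^8)`, as an explicit structure. -/
@[ext]
structure Jet8 where
  c0 : ZMod 11
  c1 : ZMod 11
  c2 : ZMod 11
  c3 : ZMod 11
  c4 : ZMod 11
  c5 : ZMod 11
  c6 : ZMod 11
  c7 : ZMod 11
deriving DecidableEq

namespace Jet8

instance : Zero Jet8 := ⟨⟨0, 0, 0, 0, 0, 0, 0, 0⟩⟩
instance : One Jet8 := ⟨⟨1, 0, 0, 0, 0, 0, 0, 0⟩⟩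
instance : Add Jet8 := ⟨fun a b => ⟨a.c0 + b.c0, a.c1 + b.c1, a.c2 + b.c2, a.c3 + b.c3, a.c4 + b.c4, a.c5 + b.c5, a.c6 + b.c6, a.c7 + b.c7⟩⟩
instance : Neg Jet8 := ⟨fun a => ⟨-a.c0, -a.c1, -a.c2, -a.c3, -a.c4, -a.c5, -a.c6, -a.c7⟩⟩
instance : Sub Jet8 := ⟨fun a b => ⟨a.c0 - b.c0, a.c1 - b.c1, a.c2 - b.c2, a.c3 - b.c3, a.c4 - b.c4, a.c5 - b.c5, a.c6 - b.c6, a.c7 - b.c7⟩⟩
instance : Mul Jet8 := ⟨fun a b => ⟨a.c0 * b.c0, a.c0 * b.c1 + a.c1 * b.c0, a.c0 * b.c2 + a.c1 * b.c1 + a.c2 * b.c0, a.c0 * b.c3 + a.c1 * b.c2 + a.c2 * b.c1 + a.c3 * b.c0, a.c0 * b.c4 + a.c1 * b.c3 + a.c2 * b.c2 + a.c3 * b.c1 + a.c4 * b.c0, a.c0 * b.c5 + a.c1 * b.c4 + a.c2 * b.c3 + a.c3 * b.c2 + a.c4 * b.c1 + a.c5 * b.c0, a.c0 * b.c6 + a.c1 * b.c5 + a.c2 * b.c4 + a.c3 * b.c3 + a.c4 * b.c2 + a.c5 * b.c1 + a.c6 * b.c0, a.c0 * b.c7 + a.c1 * b.c6 + a.c2 *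 b.c5 + a.c3 * b.c4 + a.c4 * b.c3 + a.c5 * b.c2 + a.c6 * b.c1 + a.c7 * b.c0⟩⟩
instance : NatCast Jet8 := ⟨fun n => ⟨(n : ZMod 11), 0, 0, 0, 0, 0, 0, 0⟩⟩
instance : IntCast Jet8 := ⟨fun n => ⟨(n : ZMod 11), 0, 0, 0, 0, 0, 0, 0⟩⟩
instance : SMul ℕ Jet8 := ⟨fun n a => ⟨n • a.c0, n • a.c1, n • a.c2, n • a.c3, n • a.c4, n • a.c5, n • a.c6, n • a.c7⟩⟩
instance : SMul ℤ Jet8 := ⟨fun n a => ⟨n • a.c0, n • a.c1, n • a.c2, n • a.c3, n • a.c4, n • a.c5, n • a.c6, n • a.c7⟩⟩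

@[simp] lemma zero_c0 : (0 : Jet8).c0 = 0 := rfl
@[simp] lemma one_c0 : (1 : Jet8).c0 = 1 := rfl
@[simp] lemma add_c0 (a b : Jet8) : (a + b).c0 = a.c0 + b.c0 := rfl
@[simp] lemma neg_c0 (a : Jet8) : (-a).c0 = -a.c0 := rfl
@[simp] lemma sub_c0 (a b : Jet8) : (a - b).c0 = a.c0 - b.c0 := rfl
@[simp] lemma nsmul_c0 (n : ℕ) (a : Jet8) : (n • a).c0 = n • a.c0 := rfl
@[simp] lemma zsmul_c0 (n : ℤ) (a : Jet8) : (n • a).c0 = n • a.c0 := rfl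
@[simp] lemma mul_c0 (a b : Jet8) : (a * b).c0 = a.c0 * b.c0 := rfl
@[simp] lemma natCast_c0 (n : ℕ) : (n : Jet8).c0 = (n : ZMod 11) := rfl
@[simp] lemma intCast_c0 (n : ℤ) : (n : Jet8).c0 = (n : ZMod 11) := rfl
@[simp] lemma zero_c1 : (0 : Jet8).c1 = 0 := rfl
@[simp] lemma one_c1 : (1 : Jet8).c1 = 0 := rfl
@[simp] lemma add_c1 (a b : Jet8) : (a + b).c1 = a.c1 + b.c1 := rfl
@[simp] lemma neg_c1 (a : Jet8) : (-a).c1 = -a.c1 := rfl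
@[simp] lemma sub_c1 (a b : Jet8) : (a - b).c1 = a.c1 - b.c1 := rfl
@[simp] lemma nsmul_c1 (n : ℕ) (a : Jet8) : (n • a).c1 = n • a.c1 := rfl
@[simp] lemma zsmul_c1 (n : ℤ) (a : Jet8) : (n • a).c1 = n • a.c1 := rfl
@[simp] lemma mul_c1 (a b : Jet8) : (a * b).c1 = a.c0 * b.c1 + a.c1 * b.c0 := rfl
@[simp] lemma natCast_c1 (n : ℕ) : (n : Jet8).c1 = 0 := rfl
@[simp] lemma intCast_c1 (n : ℤ) : (n : Jet8).c1 = 0 := rfl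
@[simp] lemma zero_c2 : (0 : Jet8).c2 = 0 := rfl
@[simp] lemma one_c2 : (1 : Jet8).c2 = 0 := rfl
@[simp] lemma add_c2 (a b : Jet8) : (a + b).c2 = a.c2 + b.c2 := rfl
@[simp] lemma neg_c2 (a : Jet8) : (-a).c2 = -a.c2 := rfl
@[simp] lemma sub_c2 (a b : Jet8) : (a - b).c2 = a.c2 - b.c2 := rfl
@[simp] lemma nsmul_c2 (n : ℕ) (a : Jet8) : (n • a).c2 = n • a.c2 := rfl
@[simp] lemma zsmul_c2 (n : ℤ) (a : Jet8) : (n • a).c2 = n • a.c2 := rfl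
@[simp] lemma mul_c2 (a b : Jet8) : (a * b).c2 = a.c0 * b.c2 + a.c1 * b.c1 + a.c2 * b.c0 := rfl
@[simp] lemma natCast_c2 (n : ℕ) : (n : Jet8).c2 = 0 := rfl
@[simp] lemma intCast_c2 (n : ℤ) : (n : Jet8).c2 = 0 := rfl
@[simp] lemma zero_c3 : (0 : Jet8).c3 = 0 := rfl
@[simp] lemma one_c3 : (1 : Jet8).c3 = 0 := rfl
@[simp] lemma add_c3 (a b : Jet8) : (a + b).c3 = a.c3 + b.c3 := rfl
@[simp] lemma neg_c3 (a : Jet8) : (-a).c3 = -a.c3 := rfl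
@[simp] lemma sub_c3 (a b : Jet8) : (a - b).c3 = a.c3 - b.c3 := rfl
@[simp] lemma nsmul_c3 (n : ℕ) (a : Jet8) : (n • a).c3 = n • a.c3 := rfl
@[simp] lemma zsmul_c3 (n : ℤ) (a : Jet8) : (n • a).c3 = n • a.c3 := rfl
@[simp] lemma mul_c3 (a b : Jet8) : (a * b).c3 = a.c0 * b.c3 + a.c1 * b.c2 + a.c2 * b.c1 + a.c3 * b.c0 := rfl
@[simp] lemma natCast_c3 (n : ℕ) : (n : Jet8).c3 = 0 := rfl
@[simp] lemma intCast_c3 (n : ℤ) : (n : Jet8).c3 = 0 := rfl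
@[simp] lemma zero_c4 : (0 : Jet8).c4 = 0 := rfl
@[simp] lemma one_c4 : (1 : Jet8).c4 = 0 := rfl
@[simp] lemma add_c4 (a b : Jet8) : (a + b).c4 = a.c4 + b.c4 := rfl
@[simp] lemma neg_c4 (a : Jet8) : (-a).c4 = -a.c4 := rfl
@[simp] lemma sub_c4 (a b : Jet8) : (a - b).c4 = a.c4 - b.c4 := rfl
@[simp] lemma nsmul_c4 (n : ℕ) (a : Jet8) : (n • a).c4 = n • a.c4 := rfl
@[simp] lemma zsmul_c4 (n : ℤ) (a : Jet8) : (n • a).c4 = n • a.c4 := rfl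
@[simp] lemma mul_c4 (a b : Jet8) : (a * b).c4 = a.c0 * b.c4 + a.c1 * b.c3 + a.c2 * b.c2 + a.c3 * b.c1 + a.c4 * b.c0 := rfl
@[simp] lemma natCast_c4 (n : ℕ) : (n : Jet8).c4 = 0 := rfl
@[simp] lemma intCast_c4 (n : ℤ) : (n : Jet8).c4 = 0 := rfl
@[simp] lemma zero_c5 : (0 : Jet8).c5 = 0 := rfl
@[simp] lemma one_c5 : (1 : Jet8).c5 = 0 := rfl
@[simp] lemma add_c5 (a b : Jet8) : (a + b).c5 = a.c5 + b.c5 := rfl
@[simp] lemma neg_c5 (a : Jet8) : (-a).c5 = -a.c5 := rfl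
@[simp] lemma sub_c5 (a b : Jet8) : (a - b).c5 = a.c5 - b.c5 := rfl
@[simp] lemma nsmul_c5 (n : ℕ) (a : Jet8) : (n • a).c5 = n • a.c5 := rfl
@[simp] lemma zsmul_c5 (n : ℤ) (a : Jet8) : (n • a).c5 = n • a.c5 := rfl
@[simp] lemma mul_c5 (a b : Jet8) : (a * b).c5 = a.c0 * b.c5 + a.c1 * b.c4 + a.c2 * b.c3 + a.c3 * b.c2 + a.c4 * b.c1 + a.c5 * b.c0 := rfl
@[simp] lemma natCast_c5 (n : ℕ) : (n : Jet8).c5 = 0 := rfl
@[simp] lemma intCast_c5 (n : ℤ) : (n : Jet8).c5 = 0 := rfl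
@[simp] lemma zero_c6 : (0 : Jet8).c6 = 0 := rfl
@[simp] lemma one_c6 : (1 : Jet8).c6 = 0 := rfl
@[simp] lemma add_c6 (a b : Jet8) : (a + b).c6 = a.c6 + b.c6 := rfl
@[simp] lemma neg_c6 (a : Jet8) : (-a).c6 = -a.c6 := rfl
@[simp] lemma sub_c6 (a b : Jet8) : (a - b).c6 = a.c6 - b.c6 := rfl
@[simp] lemma nsmul_c6 (n : ℕ) (a : Jet8) : (n • a).c6 = n • a.c6 := rfl
@[simp] lemma zsmul_c6 (n : ℤ) (a : Jet8) : (n • a).c6 = n • a.c6 := rfl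
@[simp] lemma mul_c6 (a b : Jet8) : (a * b).c6 = a.c0 * b.c6 + a.c1 * b.c5 + a.c2 * b.c4 + a.c3 * b.c3 + a.c4 * b.c2 + a.c5 * b.c1 + a.c6 * b.c0 := rfl
@[simp] lemma natCast_c6 (n : ℕ) : (n : Jet8).c6 = 0 := rfl
@[simp] lemma intCast_c6 (n : ℤ) : (n : Jet8).c6 = 0 := rfl
@[simp] lemma zero_c7 : (0 : Jet8).c7 = 0 := rfl
@[simp] lemma one_c7 : (1 : Jet8).c7 = 0 := rfl
@[simp] lemma add_c7 (a b : Jet8) : (a + b).c7 = a.c7 + b.c7 := rfl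
@[simp] lemma neg_c7 (a : Jet8) : (-a).c7 = -a.c7 := rfl
@[simp] lemma sub_c7 (a b : Jet8) : (a - b).c7 = a.c7 - b.c7 := rfl
@[simp] lemma nsmul_c7 (n : ℕ) (a : Jet8) : (n • a).c7 = n • a.c7 := rfl
@[simp] lemma zsmul_c7 (n : ℤ) (a : Jet8) : (n • a).c7 = n • a.c7 := rfl
@[simp] lemma mul_c7 (a b : Jet8) : (a * b).c7 = a.c0 * b.c7 + a.c1 * b.c6 + a.c2 * b.c5 + a.c3 * b.c4 + a.c4 * b.c3 + a.c5 * b.c2 + a.c6 * b.c1 + a.c7 * b.c0 := rfl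
@[simp] lemma natCast_c7 (n : ℕ) : (n : Jet8).c7 = 0 := rfl
@[simp] lemma intCast_c7 (n : ℤ) : (n : Jet8).c7 = 0 := rfl

instance : CommRing Jet8 where
  add_assoc a b c := by ext <;> simp [add_assoc]
  zero_add a := by ext <;> simp
  add_zero a := by ext <;> simp
  nsmul n a := n • a
  nsmul_zero a := by ext <;> simp
  nsmul_succ n a := by ext <;> simp [add_mul]
  zsmul n a := n • a
  zsmul_zero' a := by ext <;> simp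
  zsmul_succ' n a := by ext <;> simp [add_mul]
  zsmul_neg' n a := by ext <;> simp [add_mul]
  sub_eq_add_neg a b := by ext <;> simp [sub_eq_add_neg]
  neg_add_cancel a := by ext <;> simp
  add_comm a b := by ext <;> simp [add_comm]
  left_distrib a b c := by ext <;> simp <;> ring
  right_distrib a b c := by ext <;> simp <;> ring
  zero_mul a := by ext <;> simp
  mul_zero a := by ext <;> simp
  mul_assoc a b c := by ext <;> simp <;> ring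
  one_mul a := by ext <;> simp
  mul_one a := by ext <;> simp
  natCast_zero := by ext <;> simp
  natCast_succ n := by ext <;> simp
  intCast_ofNat n := by ext <;> simp
  intCast_negSucc n := by ext <;> simp
  mul_comm a b := by ext <;> simp <;> ring

/-- the variable `t` -/
def t : Jet8 := ⟨0, 1, 0, 0, 0, 0, 0, 0⟩

end Jet8

end Fermat.Agent.S11.H911
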